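import Fermat.Agent.RT.MazurP.Eigen

/-!
# Congruent eigenforms of eigen classes

A nonzero point of order `p` of the Jacobian on which the Hecke operators act by `a` gives a
normalised eigenform congruent to `a` modulo a maximal ideal over `p`.
-/

set_option autoImplicit false

noncomputable section

open AlgebraicCurve ModularCurve Matrix
open Fermat.Agent.GaloisReps

namespace Fermat.Agent.RT.MazurQ

open Fermat.Agent.RT.MazurP (HasCong)

variable {N : ℕ} [NeZero N] {p : ℕ} [Fact p.Prime]

/-- An eigen class of order `p` gives a congruent eigenform. -/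
theorem hasCong_of_eigenclass {G : ℕ → Prop} {a : ℕ → ℕ} {x : JZero N} (hx : x ≠ 0)
    (hpx : p • x = 0) (hxe : ∀ l (hl : l.Prime), G l → heckeOperatorBar N ⟨l, hl⟩ x = a l • x) :
    HasCong N p G a := by
  classical
  let K := AlgebraicClosure (ZMod p)
  have : CharP K p := charP_of_injective_algebraMap (algebraMap (ZMod p) K).injective p
  let ι : ZMod (p ^ 1) →+* K :=
    (ZMod.castHom dvd_rfl K).comp (ZMod.ringEquivCongr (pow_one p)).toRingHom
  have hι : Function.Injective ι :=
    (ZMod.castHom_injective K).comp (ZMod.ringEquivCongr (pow_one p)).injective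
  set z : JTors N p 1 := ⟨x, Pic0.mem_torsion.mpr (by rw [natCast_zsmul, pow_one]; exact hpx)⟩ with hz
  obtain ⟨w, hw⟩ : ∃ w, w = (torsionIso N p (conjProperty N)).psi 1 z := ⟨_, rfl⟩
  have hw0 : w ≠ 0 := fun h => hx (by
    rw [hw, AddEquiv.map_eq_zero_iff] at h
    exact congrArg Subtype.val h)
  have hwe : ∀ l (hl : l.Prime), G l →
      ((opMat N l hl).map (Int.castRingHom (ZMod (p ^ 1)))) *ᵥ w = a l • w := by
    intro l hl hG
    have e : heckeTors 1 ⟨l, hl⟩ z = a l • z := Subtype.ext (hxe l hl hG)
    rw [hw, ← map_nsmul, ← e, ← TorsionIso.mat_mulVec, TorsionIso.mat_heckeTors]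
  let v : Fin (2 * Gamma0.genus N) → K := fun i => ι (w i)
  have hv0 : v ≠ 0 := fun h => hw0 (funext fun i => hι (by
    show ι (w i) = ι 0
    rw [map_zero]
    exact congrFun h i))
  have hve : ∀ l (hl : l.Prime), G l →
      ((opMat N l hl).map (Int.castRingHom K)) *ᵥ v = (a l : K) • v := by
    intro l hl hG
    funext i
    have h := congrArg ι (congrFun (hwe l hl hG) i)
    simp only [Matrix.mulVec, dotProduct, map_sum, map_mul, Matrix.map_apply, Pi.smul_apply,
      Int.coe_castRingHom, map_intCast, smul_eq_mul, nsmul_eq_mul, map_natCast] at h ⊢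
    exact h
  let act : FullHecke N →+* Module.End K (Fin (2 * Gamma0.genus N) → K) :=
    (Matrix.toLinAlgEquiv' (R := K) (n := Fin (2 * Gamma0.genus N))).toAlgHom.toRingHom.comp
      (matIn (latticeMat N) K)
  refine MazurP.exists_eigenform_of_eigenvector act hv0 G (fun l => (a l : ℤ)) fun l hl hG => ?_
  rw [show act (HeckeDuality.heckeOp N 2 l hl) v =
      matIn (latticeMat N) K (HeckeDuality.heckeOp N 2 l hl) *ᵥ v from Matrix.toLinAlgEquiv'_apply _ _,
    matIn_apply, latticeMat_heckeOp, hve l hl hG, Int.cast_natCast]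

end Fermat.Agent.RT.MazurQ

end
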