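import Fermat.Agent.RT.MazurQ.Frob
import Fermat.Agent.RT.MazurQ.EigenClass
import Fermat.Agent.RT.AtP.Module
import Fermat.Agent.EC.Rep.Cyclotomic
import Fermat.Agent.FiniteFlat.TorsionInjective
import Fermat.Agent.GaloisReps.OfInjective

/-!
# A scalar Frobenius at `q` from the sign of the involution

If Frobenius at `q` is `-q w` on the inertia-fixed eigen classes of level `q M`, then
`q ≡ 1 (mod p)` and Frobenius at `q` is a scalar in the residual representation.
-/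

set_option autoImplicit false
set_option linter.unusedSectionVars false

noncomputable section

namespace Fermat.Agent.RT.MazurQ

open AlgebraicCurve ModularCurve Fermat.Agent.Semistable Fermat.Agent.Arith
open Fermat.Agent.RT.Mazur Fermat.Agent.RT.MazurP Fermat.Agent.RT.AtP Fermat.Agent.EC.Rep

variable {q M p : ℕ} [hq : Fact q.Prime] [hp : Fact p.Prime] [NeZero M]

theorem wSA_mul_wSA (hqM : ¬ q ∣ M) : wSA hqM * wSA hqM = 1 :=
  Subtype.ext (Prod.ext (RingEquiv.ext fun x => wEquiv_wEquiv q M hqM x)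
    (RingEquiv.ext fun _ => rfl))

theorem wSA_wSA (hqM : ¬ q ∣ M) (x : JZero (q * M)) : wSA hqM • wSA hqM • x = x := by
  rw [← mul_smul, wSA_mul_wSA, one_smul]

theorem galois_wSA (hqM : ¬ q ∣ M) (σ : GQ) (x : JZero (q * M)) :
    σ • (wSA hqM • x) = wSA hqM • (σ • x) := by
  have e : arithmeticGalois (modularFunctionFieldFull (q * M)) σ * wSA hqM =
      wSA hqM * arithmeticGalois (modularFunctionFieldFull (q * M)) σ :=
    Subtype.ext (Prod.ext (RingEquiv.ext fun y => (wEquiv_galois q M hqM σ y).symm)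
      (RingEquiv.ext fun _ => rfl))
  rw [galois_smul_pic0_def, galois_smul_pic0_def, ← mul_smul, ← mul_smul, e]

theorem nsmul_wSA (hqM : ¬ q ∣ M) (n : ℕ) (x : JZero (q * M)) :
    wSA hqM • (n • x) = n • (wSA hqM • x) :=
  map_nsmul (DistribSMul.toAddMonoidHom (JZero (q * M)) (wSA hqM)) n x

/-- The involution commutes with the Hecke operators on torsion. -/
theorem heckeOperatorBar_wSA (hqM : ¬ q ∣ M) {l : ℕ} (hl : l.Prime) (hN : ¬ l ∣ q * M) {m : ℕ}
    [NeZero m] (x : JZero (q * M)) (hx : m • x = 0) :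
    heckeOperatorBar (q * M) ⟨l, hl⟩ (wSA hqM • x) =
      wSA hqM • heckeOperatorBar (q * M) ⟨l, hl⟩ x := by
  have : NeZero l := ⟨hl.ne_zero⟩
  obtain ⟨f, hf⟩ := JacTorsion.toTorsion_surjective (K := QBar) (F := FB (q * M)) (m := m)
    ⟨x, Pic0.mem_torsion.mpr (by rw [natCast_zsmul]; exact hx)⟩
  set F := Additive.toMul f
  have hfx : (JacTorsion.toTorsion (Additive.ofMul F) : JZero (q * M)) = x :=
    congrArg Subtype.val hf
  obtain ⟨f₁, hf₁, hf₁x⟩ := exists_smul_toTorsion (wSA hqM) F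
  obtain ⟨f₂, hf₂, hf₂x⟩ := exists_heckeNorm_toTorsion l hl f₁
  obtain ⟨f₃, hf₃, hf₃x⟩ := exists_heckeNorm_toTorsion l hl F
  obtain ⟨f₄, hf₄, hf₄x⟩ := exists_smul_toTorsion (wSA hqM) f₃
  have e : f₂ = f₄ := by
    refine Subtype.ext (Units.ext ?_)
    rw [hf₂, hf₄, hf₃, hf₁, wSA_smul, wSA_smul]
    exact heckeNorm_wEquiv q M l hqM hl hN _
  rw [← hfx]
  refine (congrArg (heckeOperatorBar (q * M) ⟨l, hl⟩) hf₁x).symm.trans ?_
  rw [← hf₂x, e, hf₄x, hf₃x]

/-- One of the eigen spaces of the involution is nonzero. -/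
theorem exists_wEigen (hqM : ¬ q ∣ M) (G : ℕ → Prop) (a : ℕ → ℕ)
    (hG : ∀ l, l.Prime → G l → ¬ l ∣ q * M) {x₀ : JZero (q * M)}
    (hx₀ : x₀ ∈ eigTors (q * M) p G a) (hx₀0 : x₀ ≠ 0) :
    ∃ ε : ℤ, ε ^ 2 = 1 ∧ ∃ x : JZero (q * M), x ∈ eigTors (q * M) p G a ∧ x ≠ 0 ∧
      wSA hqM • x = ε • x := by
  have hw : wSA hqM • x₀ ∈ eigTors (q * M) p G a := by
    refine ⟨(nsmul_wSA hqM p x₀).symm.trans ((congrArg (fun y : JZero (q * M) => wSA hqM • y) hx₀.1).trans (smul_zero (A := JZero (q * M)) (wSA hqM))), fun l hl hGl => ?_⟩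
    rw [heckeOperatorBar_wSA hqM hl (hG l hl hGl) x₀ hx₀.1, hx₀.2 l hl hGl, nsmul_wSA]
  by_cases h : x₀ + wSA hqM • x₀ = 0
  · exact ⟨-1, by norm_num, x₀, hx₀, hx₀0, by
      rw [neg_one_zsmul]; exact eq_neg_of_add_eq_zero_right h⟩
  · exact ⟨1, by norm_num, _, add_mem hx₀ hw, h, by
      rw [smul_add, wSA_wSA, one_smul, add_comm]⟩

/-- The part of the eigen classes on which the involution is `ε`. -/
def wPart (hqM : ¬ q ∣ M) (G : ℕ → Prop) (a : ℕ → ℕ) (ε : ℤ) :
    Submodule (ZMod p) (eigTors (q * M) p G a) :=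
  AddSubgroup.toZModSubmodule p
    { carrier := {x | wSA hqM • (x : JZero (q * M)) = ε • (x : JZero (q * M))}
      zero_mem' := by
        show wSA hqM • ((0 : eigTors (q * M) p G a) : JZero (q * M)) = _
        rw [ZeroMemClass.coe_zero, smul_zero, smul_zero]
      add_mem' := fun {x y} hx hy => by
        show wSA hqM • ((x + y : eigTors (q * M) p G a) : JZero (q * M)) = _
        rw [AddSubgroup.coe_add, smul_add, hx, hy, zsmul_add]
      neg_mem' := fun {x} hx => by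
        show wSA hqM • ((-x : eigTors (q * M) p G a) : JZero (q * M)) = _
        rw [AddSubgroup.coe_neg, smul_neg, hx, zsmul_neg] }

theorem mem_wPart {hqM : ¬ q ∣ M} {G : ℕ → Prop} {a : ℕ → ℕ} {ε : ℤ}
    {x : eigTors (q * M) p G a} :
    x ∈ wPart hqM G a ε ↔ wSA hqM • (x : JZero (q * M)) = ε • (x : JZero (q * M)) := Iff.rfl

theorem coe_intCast_smul {N : ℕ} [NeZero N] {G : ℕ → Prop} {a : ℕ → ℕ} (n : ℤ)
    (x : eigTors N p G a) :
    (((n : ZMod p) • x : eigTors N p G a) : JZero N) = n • (x : JZero N) := by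
  rw [Int.cast_smul_eq_zsmul]
  rfl

/-- An eigenvalue of an operator with a scalar quadratic relation. -/
theorem sq_smul_eq_zero {k V : Type*} [Field k] [AddCommGroup V] [Module k V] {f : Module.End k V}
    {v : V} {b c : k} (hb : f v = b • v)
    (h : f (f v) - (c • (1 : Matrix (Fin 2) (Fin 2) k)).trace • f v +
      (c • (1 : Matrix (Fin 2) (Fin 2) k)).det • v = 0) : (c - b) ^ 2 • v = 0 := by
  rw [hb, map_smul, hb, Matrix.trace_smul, Matrix.det_smul, Matrix.trace_one, Matrix.det_one,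
    Fintype.card_fin, smul_eq_mul, mul_one] at h
  push_cast at h
  linear_combination (norm := module) h

/-- Frobenius at `q` is `-q w` on the eigen classes of level `q M` fixed by inertia. -/
def FrobNeg (hqM : ¬ q ∣ M) (p : ℕ) (G : ℕ → Prop) (a : ℕ → ℕ) : Prop :=
  ∀ (A : ValuationSubring QBar), A.LiesOverPrime q → ∀ σ : GQ, A.IsFrobeniusAt σ q →
    ∀ x : JZero (q * M), x ∈ eigTors (q * M) p G a →
      (∀ τ ∈ A.inertiaSubgroupIn ℚ, τ • x = x) →
        σ • x = -(q • (wSA hqM • (x : Pic0 QBar (FB (q * M)))))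

/-- Frobenius is scalar on the `ε`-part, hence on the representation, and `q ≡ 1 (mod p)`. -/
theorem scalar_of_frobNeg (hqM : ¬ q ∣ M) (hqp : p ≠ q)
    {G : ℕ → Prop} {a : ℕ → ℕ} (hG : ∀ l, l.Prime → G l → ¬ l ∣ q * M * p)
    (T : Finset ℕ) (hT : ∀ l, l.Prime → l ∉ T → G l)
    (r : GQ →* Matrix (Fin 2) (Fin 2) (ZMod p))
    (hfin : ∃ L : IntermediateField ℚ QBar, FiniteDimensional ℚ L ∧
      ∀ σ : GQ, (∀ z ∈ L, σ z = z) → r σ = 1)
    (hspan : Submodule.span (ZMod p) (Set.range r) = ⊤)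
    (hfrob : ∀ l, l.Prime → G l → ∀ A' : ValuationSubring QBar, A'.LiesOverPrime l →
      ∀ σ : GQ, A'.IsFrobeniusAt σ l → (r σ).trace = a l ∧ (r σ).det = l)
    (hdet : ∀ σ : GQ, (r σ).det = (cyclotomicHom p σ : ZMod p))
    (hunr : ∀ A : ValuationSubring QBar, A.LiesOverPrime q →
      ∀ τ ∈ A.inertiaSubgroupIn ℚ, r τ = 1)
    {x₀ : JZero (q * M)} (hx₀ : x₀ ∈ eigTors (q * M) p G a) (hx₀0 : x₀ ≠ 0)
    (hF : FrobNeg hqM p G a) :
    (q : ZMod p) = 1 ∧ ∀ A : ValuationSubring QBar, A.LiesOverPrime q →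
      ∀ σ : GQ, A.IsFrobeniusAt σ q → ∃ c : ZMod p, r σ = c • 1 := by
  classical
  have hGN : ∀ l, l.Prime → G l → ¬ l ∣ q * M := fun l hl hl' h =>
    hG l hl hl' (h.trans (dvd_mul_right _ _))
  have key : ∀ A : ValuationSubring QBar, A.LiesOverPrime q → ∀ σ : GQ, A.IsFrobeniusAt σ q →
      (q : ZMod p) = 1 ∧ ∃ c : ZMod p, r σ = c • 1 := by
    intro A hA σ hσ
    obtain ⟨ε, hε, x, hx, hx0, hwx⟩ := exists_wEigen hqM G a hGN hx₀ hx₀0
    let ψ := eigRep (q * M) p G a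
    have hES : GaloisReps.CongruenceProperty (q * M) p := GaloisReps.congruenceProperty_of_injective
      (FiniteFlat.injectiveOnTorsion_of_lattice _)
    have hquad := eigRep_quadratic hES hG T hT r hfin hfrob
    let V₁ := wPart (p := p) hqM G a ε
    have hV₁ : V₁ = wPart (p := p) hqM G a ε := rfl
    have h₁ : IsStableUnder ψ V₁ := fun g v hv => by
      rw [hV₁, mem_wPart] at hv ⊢
      rw [coe_eigRep, ← galois_wSA, hv]
      exact map_zsmul (DistribSMul.toAddMonoidHom (JZero (q * M)) g) ε _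
    have h₁0 : V₁ ≠ ⊥ := (Submodule.ne_bot_iff _).mpr
      ⟨⟨x, hx⟩, mem_wPart.mpr hwx, fun h => hx0 (congrArg Subtype.val h)⟩
    obtain ⟨U, hUle, hU0, hUst, htriv, hnon⟩ :=
      exists_submodule_kernel ψ r hspan V₁ h₁ h₁0 fun g v _ => hquad g v
    let b : ZMod p := -((q : ZMod p) * (ε : ZMod p))
    have hb : b = -((q : ZMod p) * (ε : ZMod p)) := rfl
    have hscal : ∀ v ∈ U, ψ σ v = b • v := by
      intro v hv
      have hfix : ∀ τ ∈ A.inertiaSubgroupIn ℚ, τ • (v : JZero (q * M)) = v := fun τ hτ =>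
        congrArg Subtype.val (htriv τ (hunr A hA τ hτ) v hv)
      have h := hF A hA σ hσ _ v.2 hfix
      refine Subtype.ext ?_
      rw [coe_eigRep, hb, show -((q : ZMod p) * (ε : ZMod p)) = ((-((q : ℤ) * ε) : ℤ) : ZMod p) by
        push_cast; ring, coe_intCast_smul, h, mem_wPart.mp (hUle hv), neg_smul, mul_smul,
        natCast_zsmul]
    have hc : ∃ c : ZMod p, r σ = c • 1 := by
      by_contra hcon
      simp only [not_exists] at hcon
      obtain ⟨v, hv, hne⟩ := hnon σ hcon b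
      exact hne (hscal v hv)
    obtain ⟨c, hc⟩ := hc
    refine ⟨?_, c, hc⟩
    obtain ⟨v, hv, hv0⟩ := Submodule.exists_mem_ne_zero_of_ne_bot hU0
    have h2 : ((c - b) ^ 2) • v = 0 := sq_smul_eq_zero (hscal v hv) (hc ▸ hquad σ v)
    have hcb : c = b :=
      sub_eq_zero.mp (sq_eq_zero_iff.mp ((smul_eq_zero.mp h2).resolve_right hv0))
    have hdσ : (r σ).det = (q : ZMod p) := by
      rw [hdet, cyclotomicHom_apply,
        modularCyclotomicCharacter_frobenius hA hq.out hσ _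
          fun h => hqp ((Nat.prime_dvd_prime_iff_eq hq.out hp.out).mp h).symm]
    rw [hc, Matrix.det_smul, Matrix.det_one, Fintype.card_fin, mul_one, hcb, hb] at hdσ
    have hq0 : (q : ZMod p) ≠ 0 := fun h => hqp
      ((Nat.prime_dvd_prime_iff_eq hp.out hq.out).mp ((ZMod.natCast_eq_zero_iff q p).mp h))
    have hε' : (ε : ZMod p) ^ 2 = 1 := by rw [← Int.cast_pow, hε, Int.cast_one]
    refine mul_left_cancel₀ hq0 ?_
    linear_combination hdσ - (q : ZMod p) ^ 2 * hε'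
  obtain ⟨A, hA⟩ := Arith.exists_liesOverPrime hq.out
  obtain ⟨σ, hσ⟩ := Arith.exists_isFrobeniusAt hA hq.out
  exact ⟨(key A hA σ hσ).1, fun A' hA' σ' hσ' => (key A' hA' σ' hσ').2⟩

end Fermat.Agent.RT.MazurQ

end
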