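import Fermat.Agent.RT.MazurQ.Sides
import Fermat.Agent.Semistable.Torsion
import Fermat.Agent.Semistable.LocalTheory
import Fermat.Agent.NewformLocal.Toric.Kummer

/-!
# Kummer functions of eigen classes of level `q M`

Constant reductions after changing the divisor, and relations of classes from products of powers.
-/

set_option autoImplicit false
set_option linter.unusedSectionVars false

noncomputable section

namespace Fermat.Agent.RT.MazurQ

open AlgebraicCurve ModularCurve Fermat.Agent.Semistable Fermat.Agent.Arith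
open Fermat.Agent.RT.Mazur Fermat.Agent.RT.MazurP Fermat.Agent.NewformLocal.Toric

variable {A : ValuationSubring QBar} {q M p : ℕ} [hq : Fact q.Prime] [hp : Fact p.Prime] [NeZero M]

/-- A Kummer function with both reductions `p`-th powers up to constants, congruent orders along
the components, has a constant reduction after changing the divisor by a principal one. -/
theorem exists_hasKummer_of_pow [CharP (Res A) q] [FF.IsFunctionField (Res A) (KM A M)]
    (h : Setup A M q) (V : VUnit A h.hqM) (hV : V.Simple) {C : CoefField A q}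
    (K : RT.MazurP.Kum h.hqM C p) (hδ : (p : ℤ) ∣ K.δ)
    (hpow : ∀ s, ∃ (c : Res A) (k : KM A M), c ≠ 0 ∧ k ≠ 0 ∧
      K.fb s = algebraMap (Res A) (KM A M) c * k ^ p)
    {D : Divisor QBar (FB (q * M))} (hord : ∀ v, v.ord K.f = (p : ℤ) * D v) :
    ∃ (P : Divisor QBar (FB (q * M))) (a : Fin 2 → Res A),
      P ∈ Divisor.principal (K := QBar) (F := FB (q * M)) ∧ HasKummer h (D + P) p a := by
  simpa only [one_smul] using exists_hasKummer_of_fb_pow h V hV K 1
    (by rwa [Nat.cast_one, one_mul]) (fun s => by rw [pow_one]; exact hpow s) hord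

/-- The Atkin–Lehner involution as a semilinear automorphism. -/
def wSA (hqM : ¬ q ∣ M) : SemilinearAut QBar (FB (q * M)) :=
  SemilinearAut.ofAlgAut (wEquiv q M hqM)

theorem wSA_smul (hqM : ¬ q ∣ M) (x : FB (q * M)) : wSA hqM • x = wEquiv q M hqM x := rfl

/-- The expansions do not change with the auxiliary level. -/
theorem iota2_inclF {M' : ℕ} [NeZero M'] (hMM : M ∣ M') (hqM : ¬ q ∣ M) (hqM' : ¬ q ∣ M')
    (x : FB (q * M)) (s : Fin 2) :
    iota2 M' q hqM' s (inclF (mul_dvd_mul_left q hMM) x) = iota2 M q hqM s x := by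
  fin_cases s
  · show iota2 M' q hqM' 0 _ = iota2 M q hqM 0 x
    rw [iota2_zero, iota2_zero, coe_inclF]
  · show iota2 M' q hqM' 1 _ = iota2 M q hqM 1 x
    rw [iota2_one, iota2_one, wEquiv_inclF hMM hqM hqM', coe_inclF]

theorem wAut_smul_apply [CharP (Res A) q] [FF.IsFunctionField (Res A) (KM A M)]
    (h : Setup A M q) (D : Divisor QBar (FB (q * M))) (w : Place QBar (FB (q * M))) :
    (Semistable.wAut h • D) w = D ((Semistable.wAut h)⁻¹ • w) := by
  rw [SemilinearAut.divisor_smul_def]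
  conv_lhs => rw [show w = Semistable.wAut h • ((Semistable.wAut h)⁻¹ • w) by rw [smul_inv_smul]]
  rw [Finsupp.mapDomain_apply (MulAction.injective _)]

/-- On a class with constant reductions Frobenius is `-q w`, on the Kummer functions. -/
theorem exists_const_mul_pow_of_hasKummer [CharP (Res A) q]
    [FF.IsFunctionField (Res A) (KM A M)] (h : Setup A M q) (hqp : p ≠ q) {σ : GQ}
    (hσ : A.IsFrobeniusAt σ q) {f : FB (q * M)} (hf : f ≠ 0)
    {D P : Divisor QBar (FB (q * M))} {b : Fin 2 → Res A}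
    (hord : ∀ v, v.ord f = (p : ℤ) * D v)
    (hP : P ∈ Divisor.principal (K := QBar) (F := FB (q * M)))
    (hKum : HasKummer h (D + P) p b) :
    ∃ (c : QBar) (g : FB (q * M)), c ≠ 0 ∧ g ≠ 0 ∧
      galF (q * M) σ f * wEquiv q M h.hqM f ^ q = algebraMap QBar (FB (q * M)) c * g ^ p := by
  obtain ⟨g₀, hg₀, hg₀ord⟩ := Setup.frobenius_add_wAut_principal hσ hp.out.ne_zero
    (fun hd => hqp ((Nat.prime_dvd_prime_iff_eq hq.out hp.out).mp hd).symm) hKum
  obtain ⟨φ, hφ, hφord⟩ := hP
  have hσφ : galF (q * M) σ φ ≠ 0 := (_root_.map_ne_zero _).mpr hφ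
  have hwφ : wEquiv q M h.hqM φ ≠ 0 := (_root_.map_ne_zero _).mpr hφ
  have hσf : galF (q * M) σ f ≠ 0 := (_root_.map_ne_zero _).mpr hf
  have hwf : wEquiv q M h.hqM f ≠ 0 := (_root_.map_ne_zero _).mpr hf
  have hg : g₀ / (galF (q * M) σ φ * wEquiv q M h.hqM φ ^ q) ≠ 0 :=
    div_ne_zero hg₀ (mul_ne_zero hσφ (pow_ne_zero _ hwφ))
  obtain ⟨c, hc, hce⟩ := exists_eq_const_mul (K := QBar)
    (x := galF (q * M) σ f * wEquiv q M h.hqM f ^ q)
    (y := (g₀ / (galF (q * M) σ φ * wEquiv q M h.hqM φ ^ q)) ^ p)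
    (mul_ne_zero hσf (pow_ne_zero _ hwf)) (pow_ne_zero _ hg) fun w => by
      have e1 := ord_galF σ hord w
      have e2 : w.ord (wEquiv q M h.hqM f) = (p : ℤ) * (Semistable.wAut h • D) w := by
        rw [Setup.ord_wEquiv h, hord, wAut_smul_apply h]
      have e3 := ord_galF σ (f := φ) (m := 1) (D := P)
        (fun v => by rw [Nat.cast_one, one_mul, hφord]) w
      have e4 : w.ord (wEquiv q M h.hqM φ) = (Semistable.wAut h • P) w := by
        rw [Setup.ord_wEquiv h, wAut_smul_apply h, hφord]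
      have e5 := hg₀ord w
      simp only [galD, smul_add, Finsupp.add_apply, Finsupp.smul_apply, nsmul_eq_mul] at e1 e3 e5
      rw [w.ord_mul hσf (pow_ne_zero _ hwf), FF.ord_pow w, e1, e2, FF.ord_pow w,
        FF.ord_div w hg₀ (mul_ne_zero hσφ (pow_ne_zero _ hwφ)),
        w.ord_mul hσφ (pow_ne_zero _ hwφ), FF.ord_pow w, e3, e4, ← e5]
      push_cast
      ring
  exact ⟨c, _, hc, hg, hce⟩

/-- Two Kummer functions whose product with a power is a power give a relation of classes. -/
theorem eq_neg_of_mul_pow {N : ℕ} [NeZero N] {f₁ f₂ : JacTorsion.divGrp QBar (FB N) p} {k : FB N}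
    (hk : k ≠ 0) {n : ℕ}
    (h : ((f₁ : (FB N)ˣ) : FB N) * ((f₂ : (FB N)ˣ) : FB N) ^ n = k ^ p) :
    (JacTorsion.toTorsion (Additive.ofMul f₁) : JZero N) =
      -(n • (JacTorsion.toTorsion (Additive.ofMul f₂) : JZero N)) := by
  have h0 : JacTorsion.toTorsion (Additive.ofMul (f₁ * f₂ ^ n)) = 0 := by
    refine (JacTorsion.toTorsion_eq_zero_iff _).mpr
      ((JacTorsion.mem_powGrp _ _).mpr ⟨Units.mk0 k hk, Units.ext ?_⟩)
    rw [Units.val_pow_eq_pow_val, Units.val_mk0, Subgroup.coe_mul, SubgroupClass.coe_pow,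
      Units.val_mul, Units.val_pow_eq_pow_val, h]
  rw [ofMul_mul, ofMul_pow, map_add, map_nsmul] at h0
  have h1 := congrArg Subtype.val h0
  rw [AddSubgroup.coe_add, AddSubgroup.coe_nsmul] at h1
  exact eq_neg_of_add_eq_zero_left h1

theorem galois_smul_eq_galF {N : ℕ} [NeZero N] (σ : GQ) (x : FB N) :
    arithmeticGalois (modularFunctionFieldFull N) σ • x = galF N σ x := by
  rw [SemilinearAut.smul_def, toRingAut_arithmeticGalois]

end Fermat.Agent.RT.MazurQ

end
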