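import Fermat.Agent.Semistable.Basis
import Fermat.Agent.RT.MazurP.Basic
import Fermat.Agent.Semistable.GoodM
import Fermat.Agent.RT.MazurP.HeckeSeries
import Fermat.Agent.EichlerShimura.Specialization
import Fermat.Agent.Mazur.Eisenstein.RedKernel
import Fermat.Agent.CurveTorsion.Main
import Fermat.Agent.CurveTorsion.TorsionCount

/-!
# Reduction of Kummer functions at a prime of good reduction

At a level `M` prime to `q` the reduction of a Kummer function is a Kummer function of the reduced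
class; every Kummer function of the special fibre lifts, by counting torsion.
-/

set_option autoImplicit false
set_option linter.unusedSectionVars false

noncomputable section

namespace Fermat.Agent.RT.MazurQ

open AlgebraicCurve ModularCurve Fermat.Agent.Semistable Fermat.Agent.Arith
open Fermat.Agent.RT.Mazur Fermat.Agent.RT.MazurP

variable {A : ValuationSubring QBar} {M : ℕ} [NeZero M]

theorem mem_KM_of_isRed (hM : (M : Res A) ≠ 0) {x : FB M} {z : LaurentSeries (Res A)}
    (h : IsRed A (x : LSer) z) : z ∈ KM A M := by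
  obtain ⟨-, c, -, hc, rfl⟩ := h
  have h := red1_mem_KM M hM ⟨algebraMap QBar (FB M) c * x, (mem_loc1 M).mpr hc⟩
  rw [red1_eq] at h
  exact h

variable {q : ℕ} [hq : Fact q.Prime] (hA : A.LiesOverPrime q) (hM : (M : Res A) ≠ 0)
include hA hM

variable [FF.IsFunctionField (Res A) (KM A M)] [IsAlgClosed (Res A)] [CharP (Res A) q]

omit hA hM [IsAlgClosed (Res A)] [CharP (Res A) q] in
theorem mapDomain_div_int {r : Place QBar (FB M) → Place (Res A) (KM A M)}
    (hr : IsPlaceReductionModL A M r) (a : FB M) (ha : (a : LSer) ∈ intS A)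
    (hne : red A ⟨_, ha⟩ ≠ 0) (hK : red A ⟨_, ha⟩ ∈ KM A M) :
    Finsupp.mapDomain r (FF.div QBar a) = FF.div (Res A) (⟨_, hK⟩ : KM A M) := by
  have e : coeffMap A.subtype (toA A ⟨_, ha⟩) = (a : LSer) := by ext n; rfl
  refine Finsupp.ext fun Q => ?_
  exact hr.2 (toA A ⟨_, ha⟩) (e.symm ▸ a.2) hK hne (FF.div QBar a)
    (fun P => congrArg P.ord (Subtype.ext e.symm)) Q

omit [CharP (Res A) q] hA [IsAlgClosed (Res A)] in
/-- The divisor of a reduction is the reduction of the divisor. -/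
theorem mapDomain_div_isRed {r : Place QBar (FB M) → Place (Res A) (KM A M)}
    (hr : IsPlaceReductionModL A M r) {x : FB M} {z : KM A M}
    (h : IsRed A (x : LSer) (z : LaurentSeries (Res A))) :
    Finsupp.mapDomain r (FF.div QBar x) = FF.div (Res A) z := by
  obtain ⟨hz, c, hc, hcx, hcr⟩ := h
  obtain ⟨⟨a, ha⟩, ⟨b, hb⟩, haF, hbF, hrb, hab⟩ :=
    exists_int_frac M hM (x := algebraMap QBar (FB M) c * x) hcx
  have hra : red A ⟨a, ha⟩ = (z : LaurentSeries (Res A)) * red A ⟨b, hb⟩ := by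
    rw [← hcr]; exact (redL_mul_red ⟨_, hcx⟩ hrb hab).symm
  have hKb : red A ⟨b, hb⟩ ∈ KM A M := by
    rw [← redL_of_mem_intS]
    exact mem_KM_of_isRed hM (x := ⟨b, hbF⟩) (IsRed.of_locS (intS_le_locS hb)
      (by rwa [redL_of_mem_intS ⟨b, hb⟩]))
  have hK0 : (⟨_, hKb⟩ : KM A M) ≠ 0 := fun h0 => hrb (congrArg Subtype.val h0)
  have hx0 : x ≠ 0 := fun h0 => (IsRed.ne_zero_left (z := (z : LaurentSeries (Res A)))
    ⟨hz, c, hc, hcx, hcr⟩) (congrArg Subtype.val h0)
  have hc0 := (_root_.map_ne_zero (algebraMap QBar (FB M))).mpr hc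
  have hb0 : (⟨b, hbF⟩ : FB M) ≠ 0 := fun h0 => ne_zero_of_red_ne_zero hrb (congrArg Subtype.val h0)
  have e : algebraMap QBar (FB M) c * x * ⟨b, hbF⟩ = ⟨a, haF⟩ := Subtype.ext hab
  have hKa : red A ⟨a, ha⟩ ∈ KM A M := hra ▸ mul_mem z.2 hKb
  have e' : (⟨_, hKa⟩ : KM A M) = z * ⟨_, hKb⟩ := Subtype.ext hra
  have h := mapDomain_div_int hr ⟨a, haF⟩ ha (hra ▸ mul_ne_zero hz hrb) hKa
  rw [e', FF.div_mul (fun h0 => hz (congrArg Subtype.val h0)) hK0, ← e,
    FF.div_mul (mul_ne_zero hc0 hx0) hb0, Finsupp.mapDomain_add,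
    mapDomain_div_int hr ⟨b, hbF⟩ hb hrb hKb] at h
  rw [← add_right_cancel h, FF.div_mul hc0 hx0]
  congr 1
  ext P
  simp [FF.ord_algebraMap]

omit [FF.IsFunctionField (Res A) (KM A M)] [IsAlgClosed (Res A)] [CharP (Res A) q] hA hM in
theorem exists_int_mul {a b : FB M} (ha : (a : LSer) ∈ intS A) (hb : (b : LSer) ∈ intS A) :
    ∃ h : ((a * b : FB M) : LSer) ∈ intS A, red A ⟨_, h⟩ = red A ⟨_, ha⟩ * red A ⟨_, hb⟩ := by
  have e : ((a * b : FB M) : LSer) = (a : LSer) * (b : LSer) := rfl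
  refine ⟨e ▸ mul_mem ha hb, ?_⟩
  rw [← map_mul]
  exact congrArg (red A) (Subtype.ext e)

omit [FF.IsFunctionField (Res A) (KM A M)] [IsAlgClosed (Res A)] [CharP (Res A) q] hA hM in
theorem exists_int_add {a b : FB M} (ha : (a : LSer) ∈ intS A) (hb : (b : LSer) ∈ intS A) :
    ∃ h : ((a + b : FB M) : LSer) ∈ intS A, red A ⟨_, h⟩ = red A ⟨_, ha⟩ + red A ⟨_, hb⟩ := by
  have e : ((a + b : FB M) : LSer) = (a : LSer) + (b : LSer) := rfl
  refine ⟨e ▸ add_mem ha hb, ?_⟩
  rw [← map_add]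
  exact congrArg (red A) (Subtype.ext e)

/-- Every function of the special fibre lifts. -/
theorem exists_isRed_lift {z : KM A M} (hz : z ≠ 0) :
    ∃ x : FB M, IsRed A (x : LSer) (z : LaurentSeries (Res A)) := by
  let S : Subalgebra (Res A) (LaurentSeries (Res A)) :=
    { carrier := {w | ∃ (a : FB M) (ha : (a : LSer) ∈ intS A), red A ⟨_, ha⟩ = w}
      mul_mem' := fun {x y} hx hy => by
        obtain ⟨a, ha, ea⟩ := hx
        obtain ⟨b, hb, eb⟩ := hy
        obtain ⟨h, e⟩ := exists_int_mul (A := A) ha hb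
        exact ⟨a * b, h, e.trans (congrArg₂ (· * ·) ea eb)⟩
      add_mem' := fun {x y} hx hy => by
        obtain ⟨a, ha, ea⟩ := hx
        obtain ⟨b, hb, eb⟩ := hy
        obtain ⟨h, e⟩ := exists_int_add (A := A) ha hb
        exact ⟨a + b, h, e.trans (congrArg₂ (· + ·) ea eb)⟩
      algebraMap_mem' := fun r => by
        obtain ⟨⟨c, hc⟩, rfl⟩ := Ideal.Quotient.mk_surjective r
        exact ⟨algebraMap QBar (FB M) c, algebraMap_mem_intS hc, red_algebraMap hc⟩ }
  have key : ∀ w ∈ IntermediateField.adjoin (Res A) (Set.range (gen (Res A) : Dvs M → _)),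
      ∃ a ∈ S, ∃ b ∈ S, b ≠ 0 ∧ w * b = a := by
    intro w hw
    obtain ⟨r, hr, t, ht, rfl⟩ := IntermediateField.mem_adjoin_iff_div.1 hw
    have hle : Algebra.adjoin (Res A) (Set.range (gen (Res A) : Dvs M → _)) ≤ S :=
      Algebra.adjoin_le (by
        rintro _ ⟨d, rfl⟩
        refine ⟨genF M d, qExpand_mem_intS _ jqModC_mem_intS, ?_⟩
        rw [← red1_genF, red1_eq]
        exact (redL_of_mem_intS _).symm)
    rcases eq_or_ne t 0 with rfl | ht0
    · exact ⟨0, zero_mem S, 1, one_mem S, one_ne_zero, by simp⟩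
    · exact ⟨r, hle hr, t, hle ht, ht0, div_mul_cancel₀ _ ht0⟩
  obtain ⟨_, ⟨a, ha, rfl⟩, _, ⟨b, hb, rfl⟩, hb0, e⟩ := key z.1 (by rw [range_gen]; exact z.2)
  have hza : red A ⟨_, ha⟩ ≠ 0 := fun h0 => mul_ne_zero (fun h => hz (Subtype.ext h)) hb0
    (e.trans h0)
  refine ⟨a / b, ?_⟩
  have h1 := IsRed.of_locS (intS_le_locS ha) (by rw [redL_of_mem_intS ⟨_, ha⟩]; exact hza)
  have h2 := IsRed.of_locS (intS_le_locS hb) (by rw [redL_of_mem_intS ⟨_, hb⟩]; exact hb0)
  have h3 := h1.div h2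
  rw [redL_of_mem_intS ⟨_, ha⟩, redL_of_mem_intS ⟨_, hb⟩, ← e, mul_div_cancel_right₀ _ hb0] at h3
  exact h3

variable {p : ℕ} [hp : Fact p.Prime]

/-- Kummer function of the reduced class. -/
theorem reductionModL_toTorsion {f : JacTorsion.divGrp QBar (FB M) p}
    {g : JacTorsion.divGrp (Res A) (KM A M) p}
    (h : IsRed A (((f : (FB M)ˣ) : FB M) : LSer)
      (((g : (KM A M)ˣ) : KM A M) : LaurentSeries (Res A))) :
    reductionModL A M (JacTorsion.toTorsion (Additive.ofMul f) : JZero M) =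
      (JacTorsion.toTorsion (Additive.ofMul g) : Pic0 (Res A) (KM A M)) := by
  have hin := EichlerShimura.reductionInputsModL (N := M) hM
  refine (reductionModL_mk hin ⟨_, JacTorsion.divQuot_mem_degZero f⟩).trans ?_
  refine congrArg Pic0.mk (Subtype.ext (JacTorsion.eq_of_smul_eq (m := p) ?_))
  rw [coe_reductionDegZeroAlong]
  show (p : ℤ) • Finsupp.mapDomain _ (JacTorsion.divQuot f) = (p : ℤ) • JacTorsion.divQuot g
  rw [← Finsupp.mapDomain_smul, JacTorsion.smul_divQuot, JacTorsion.smul_divQuot,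
    mapDomain_div_isRed hM (isPlaceReductionModL_placeReductionModL hin) h]

/-- The reduction of a Kummer function is one. -/
theorem exists_divGrp_isRed (f : JacTorsion.divGrp QBar (FB M) p) :
    ∃ g : JacTorsion.divGrp (Res A) (KM A M) p, IsRed A (((f : (FB M)ˣ) : FB M) : LSer)
      (((g : (KM A M)ˣ) : KM A M) : LaurentSeries (Res A)) := by
  have hq' : q.Prime := Fact.out
  obtain ⟨z, hz⟩ := IsRed.exists_of_ne_zero hA hq' (mem_fracS_of_mem ((f : (FB M)ˣ) : FB M))
    (fun h => (Units.ne_zero (f : (FB M)ˣ)) (Subtype.ext h))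
  have hzK : z ∈ KM A M := mem_KM_of_isRed hM hz
  have hz0 : (⟨z, hzK⟩ : KM A M) ≠ 0 := fun h => hz.1 (congrArg Subtype.val h)
  have hin := EichlerShimura.reductionInputsModL (N := M) hM
  have hd := mapDomain_div_isRed hM (isPlaceReductionModL_placeReductionModL hin)
    (z := ⟨z, hzK⟩) hz
  rw [← JacTorsion.smul_divQuot, Finsupp.mapDomain_smul] at hd
  refine ⟨⟨Units.mk0 _ hz0, fun P => ?_⟩, hz⟩
  rw [Units.val_mk0, ← FF.div_apply, ← hd, Finsupp.smul_apply, smul_eq_mul]
  exact dvd_mul_right _ _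

variable (hinj : EichlerShimura.InjectiveOnTorsion M) (hqp : p ≠ q) (hqM : ¬ q ∣ M)
include hinj hqp hqM

theorem reductionModL_torsion_injective {x : Pic0.torsion QBar (FB M) p}
    (h : reductionModL A M (x : JZero M) = 0) : x = 0 := by
  refine Subtype.ext (hinj hqM A hA (EichlerShimura.reductionInputsModL hM) p
    (fun hd => hqp ((Nat.prime_dvd_prime_iff_eq Fact.out Fact.out).mp hd).symm) _ ?_ h)
  exact CurveTorsion.mem_torsion_nsmul.mp x.2

/-- Reduction is onto the torsion prime to the residue characteristic. -/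
theorem exists_reductionModL_eq (y : Pic0.torsion (Res A) (KM A M) p) :
    ∃ x : Pic0.torsion QBar (FB M) p, reductionModL A M (x : JZero M) = (y : JZeroC (Res A) M) := by
  have hq' : q.Prime := Fact.out
  let π : Pic0.torsion QBar (FB M) p →+ Pic0.torsion (Res A) (KM A M) p :=
    { toFun := fun x => ⟨reductionModL A M (x : JZero M), CurveTorsion.mem_torsion_nsmul.mpr (by
        rw [← map_nsmul, CurveTorsion.mem_torsion_nsmul.mp x.2, map_zero])⟩
      map_zero' := Subtype.ext (map_zero _)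
      map_add' := fun a b => Subtype.ext (map_add _ _ _) }
  have hπ : Function.Injective π := (injective_iff_map_eq_zero π).mpr fun x hx =>
    reductionModL_torsion_injective hA hM hinj hqp hqM (congrArg Subtype.val hx)
  have hcard : Nat.card (Pic0.torsion (Res A) (KM A M) p) =
      p ^ (2 * genusFF (Res A) (KM A M)) := by
    have h := CurveTorsion.natCard_torsion_of_isFrob
      (Mazur.Eisenstein.isFrob_coeffAut M A (q := q) hA) p (fun hd => hqp
        ((Nat.prime_dvd_prime_iff_eq Fact.out hq').mp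
          ((Fact.out : p.Prime).dvd_of_dvd_pow hd))) 1
    rwa [pow_one, mul_one] at h
  have hcard0 : Nat.card (Pic0.torsion QBar (FB M) p) = p ^ (2 * genusFF QBar (FB M)) := by
    have h := CurveTorsion.natCard_torsion_pow_of_charZero QBar (FB M) p 1
    rwa [pow_one, mul_one] at h
  have : Finite (Pic0.torsion (Res A) (KM A M) p) :=
    Nat.finite_of_card_ne_zero (by rw [hcard]; exact pow_ne_zero _ (Fact.out : p.Prime).ne_zero)
  obtain ⟨x, hx⟩ := (hπ.bijective_of_nat_card_le (by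
    rw [hcard, hcard0]
    exact Nat.pow_le_pow_right (Fact.out : p.Prime).pos
      (Nat.mul_le_mul_left 2 (Semistable.genus_KM_le hA hM)))).2 y
  exact ⟨x, congrArg Subtype.val hx⟩

/-- Every Kummer function of the special fibre is, exactly, the reduction of one. -/
theorem exists_divGrp_lift (g : JacTorsion.divGrp (Res A) (KM A M) p) :
    ∃ f : JacTorsion.divGrp QBar (FB M) p, IsRed A (((f : (FB M)ˣ) : FB M) : LSer)
      (((g : (KM A M)ˣ) : KM A M) : LaurentSeries (Res A)) := by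
  obtain ⟨x, hx⟩ := exists_reductionModL_eq hA hM hinj hqp hqM
    (JacTorsion.toTorsion (Additive.ofMul g))
  obtain ⟨f, rfl⟩ := JacTorsion.toTorsion_surjective x
  obtain ⟨f, rfl⟩ : ∃ f', Additive.ofMul f' = f := ⟨f.toMul, rfl⟩
  obtain ⟨g', hg'⟩ := exists_divGrp_isRed hA hM f
  rw [reductionModL_toTorsion hA hM hg'] at hx
  have h0 : JacTorsion.toTorsion (Additive.ofMul (g * g'⁻¹)) = 0 := by
    rw [ofMul_mul, ofMul_inv, map_add, map_neg, add_neg_eq_zero]
    exact Subtype.ext hx.symm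
  obtain ⟨k, hk⟩ := (JacTorsion.toTorsion_eq_zero_iff _).mp h0
  obtain ⟨H, hH⟩ := exists_isRed_lift hA hM (z := (k : KM A M)) k.ne_zero
  have hH0 : H ≠ 0 := fun h => hH.ne_zero_left (congrArg Subtype.val h)
  have hmem : (f : (FB M)ˣ) * Units.mk0 H hH0 ^ p ∈ JacTorsion.divGrp QBar (FB M) p := fun P => by
    rw [Units.val_mul, Units.val_pow_eq_pow_val, Units.val_mk0,
      P.ord_mul (Units.ne_zero _) (pow_ne_zero _ hH0), FF.ord_pow P]
    exact dvd_add (f.2 P) (dvd_mul_right _ _)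
  refine ⟨⟨_, hmem⟩, ?_⟩
  have h1 := hg'.mul (hH.pow p)
  have hk' : ((k : KM A M)) ^ p =
      ((g : (KM A M)ˣ) : KM A M) * (((g' : (KM A M)ˣ) : KM A M))⁻¹ := by
    have := congrArg (fun u : (KM A M)ˣ => (u : KM A M)) hk
    simpa using this
  have e : (((g' : (KM A M)ˣ) : KM A M) : LaurentSeries (Res A)) *
      ((k : KM A M) : LaurentSeries (Res A)) ^ p =
      (((g : (KM A M)ˣ) : KM A M) : LaurentSeries (Res A)) := by
    refine congrArg Subtype.val (?_ : ((g' : (KM A M)ˣ) : KM A M) * (k : KM A M) ^ p =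
      ((g : (KM A M)ˣ) : KM A M))
    rw [hk', mul_left_comm, mul_inv_cancel₀ (Units.ne_zero _), mul_one]
  rw [e] at h1
  exact h1

/-- A Kummer function whose reduction is a power is a power. -/
theorem toTorsion_eq_zero_of_isRed {f : JacTorsion.divGrp QBar (FB M) p}
    {h : KM A M} {c : Res A} (hf : IsRed A (((f : (FB M)ˣ) : FB M) : LSer)
      ((algebraMap (Res A) (KM A M) c * h ^ p : KM A M) : LaurentSeries (Res A))) :
    JacTorsion.toTorsion (Additive.ofMul f) = 0 := by
  obtain ⟨d, rfl⟩ := IsAlgClosed.exists_pow_nat_eq c (Fact.out : p.Prime).pos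
  have e : algebraMap (Res A) (KM A M) (d ^ p) * h ^ p =
      (algebraMap (Res A) (KM A M) d * h) ^ p := by rw [map_pow, mul_pow]
  have hk0 : algebraMap (Res A) (KM A M) d * h ≠ 0 := fun h0 => hf.1 (by
    rw [e, h0, zero_pow (Fact.out : p.Prime).ne_zero]; rfl)
  have hmem : Units.mk0 _ hk0 ^ p ∈ JacTorsion.divGrp (Res A) (KM A M) p := fun P => by
    rw [Units.val_pow_eq_pow_val, Units.val_mk0, FF.ord_pow P]; exact dvd_mul_right _ _
  refine reductionModL_torsion_injective hA hM hinj hqp hqM ?_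
  rw [reductionModL_toTorsion hA hM (g := ⟨_, hmem⟩) (by
    show IsRed A _ (((Units.mk0 _ hk0 ^ p : (KM A M)ˣ) : KM A M) : LaurentSeries (Res A))
    rw [Units.val_pow_eq_pow_val, Units.val_mk0, ← e]; exact hf),
    (JacTorsion.toTorsion_eq_zero_iff _).mpr ((JacTorsion.mem_powGrp _ _).mpr ⟨_, rfl⟩)]
  rfl

end Fermat.Agent.RT.MazurQ

end
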