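import Fermat.Agent.RT.MazurQ.GoodRed
import Fermat.Agent.GaloisReps.KummerHecke
import Fermat.Agent.FF.HeckeInputsX0

/-!
# Eigen reductions at good level

A Kummer function of the special fibre whose Hecke images are powers of it lifts to an eigen class.
-/

set_option autoImplicit false
set_option linter.unusedSectionVars false

noncomputable section

namespace Fermat.Agent.RT.MazurQ

open AlgebraicCurve ModularCurve Fermat.Agent.Semistable Fermat.Agent.Arith
open Fermat.Agent.RT.Mazur Fermat.Agent.RT.MazurP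

variable {A : ValuationSubring QBar} {M p : ℕ} [NeZero M]

/-- The Hecke images of `z` at the primes in `G` are its powers `a l` up to constants and `p`-th
powers. -/
def HeckeEig (A : ValuationSubring QBar) (M p : ℕ) (G : ℕ → Prop) (a : ℕ → ℕ) (z : KM A M) : Prop :=
  ∀ (l : ℕ) [NeZero l], l.Prime → G l → ∃ (c : Res A) (k : KM A M), c ≠ 0 ∧ k ≠ 0 ∧
    IsHeckeImage l (z : LaurentSeries (Res A))
      ((algebraMap (Res A) (KM A M) c * k ^ p * z ^ a l : KM A M) : LaurentSeries (Res A))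

variable {q : ℕ} [hq : Fact q.Prime] (hA : A.LiesOverPrime q)
include hA

omit [NeZero M] in
theorem exists_primRoot (l : ℕ) [NeZero l] (hlq : ¬ q ∣ l) :
    ∃ η : (Res A)ˣ, IsPrimitiveRoot η l := by
  obtain ⟨ζ, hζ⟩ := MazurP.exists_primitive (l := l)
  exact ⟨_, resRoot_primitive hA Fact.out hlq hζ⟩

theorem isHeckeImage_unique {l : ℕ} [NeZero l] (hlq : ¬ q ∣ l) {z X X' : LaurentSeries (Res A)}
    (h : IsHeckeImage l z X) (h' : IsHeckeImage l z X') : X = X' := by
  obtain ⟨η, hη⟩ := exists_primRoot hA l hlq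
  exact qExpand_injective l ((h η hη).trans (h' η hη).symm)

variable (hM : (M : Res A) ≠ 0) [FF.IsFunctionField (Res A) (KM A M)] [IsAlgClosed (Res A)]
  [CharP (Res A) q] [hp : Fact p.Prime]
include hM

omit hp in
/-- The reduction of a `p`-th power is a `p`-th power. -/
theorem exists_isRed_pow (u : (FB M)ˣ) :
    ∃ k : KM A M, IsRed A (((u ^ p : (FB M)ˣ) : FB M) : LSer)
      ((k ^ p : KM A M) : LaurentSeries (Res A)) := by
  obtain ⟨z, hz⟩ := IsRed.exists_of_ne_zero hA hq.out (mem_fracS_of_mem (u : FB M))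
    (fun h => Units.ne_zero u (Subtype.ext h))
  refine ⟨⟨z, mem_KM_of_isRed hM hz⟩, ?_⟩
  rw [Units.val_pow_eq_pow_val]
  exact hz.pow p

variable (hinj : EichlerShimura.InjectiveOnTorsion M) (hqp : p ≠ q) (hqM : ¬ q ∣ M)
include hinj hqp hqM

/-- A lift of an eigen reduction is an eigen class. -/
theorem isEigen_of_isRed {G : ℕ → Prop} {a : ℕ → ℕ} (hG : ∀ l, l.Prime → G l → ¬ l ∣ q * M)
    {f : JacTorsion.divGrp QBar (FB M) p} {z : KM A M}
    (hf : IsRed A (((f : (FB M)ˣ) : FB M) : LSer) (z : LaurentSeries (Res A)))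
    (heig : HeckeEig A M p G a z) :
    IsEigen M G (fun l => (a l : ℤ)) (JacTorsion.toTorsion (Additive.ofMul f) : JZero M) := by
  intro l hl hGl
  have hq' : q.Prime := Fact.out
  have : NeZero l := ⟨hl.ne_zero⟩
  have hlM : ¬ l ∣ M := fun h => hG l hl hGl (dvd_mul_of_dvd_right h q)
  have hlq : ¬ q ∣ l := fun h => hG l hl hGl
    ((Nat.prime_dvd_prime_iff_eq hq' hl).mp h ▸ dvd_mul_right _ M)
  obtain ⟨f', hf', htor⟩ := exists_heckeNorm_toTorsion l hl f
  obtain ⟨X, hX, hXim⟩ := exists_isRed_heckeImage hA hq' hlq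
    (mem_fracS_of_mem (heckeNorm M l ((f : (FB M)ˣ) : FB M)))
    (fun ζ hζ => qExpand_heckeNorm hl hlM hζ _) hf
  obtain ⟨c, k, hc, hk, hkim⟩ := heig l hl hGl
  rw [isHeckeImage_unique hA hlq hXim hkim, ← hf'] at hX
  have h1 := hX.mul (hf.pow (a l)).inv
  have e : ((((f' * (f ^ a l)⁻¹ : JacTorsion.divGrp QBar (FB M) p) : (FB M)ˣ) : FB M) : LSer) =
      (((f' : (FB M)ˣ) : FB M) : LSer) * ((((f : (FB M)ˣ) : FB M) : LSer) ^ a l)⁻¹ := by
    simp
  rw [← e] at h1
  have e' : ((algebraMap (Res A) (KM A M) c * k ^ p * z ^ a l : KM A M) : LaurentSeries (Res A)) *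
      ((z : LaurentSeries (Res A)) ^ a l)⁻¹ =
      ((algebraMap (Res A) (KM A M) c * k ^ p : KM A M) : LaurentSeries (Res A)) := by
    have hz0 : (z : LaurentSeries (Res A)) ≠ 0 := hf.1
    push_cast
    rw [mul_assoc, mul_inv_cancel₀ (pow_ne_zero _ hz0), mul_one]
  rw [e'] at h1
  have h0 := toTorsion_eq_zero_of_isRed hA hM hinj hqp hqM h1
  rw [ofMul_mul, ofMul_inv, ofMul_pow, map_add, map_neg, map_nsmul, add_neg_eq_zero] at h0
  rw [← htor, h0, natCast_zsmul]
  rfl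

/-- Without eigen classes at level `M` an eigen reduction is a power. -/
theorem exists_eq_pow_of_heckeEig (G : ℕ → Prop) (a : ℕ → ℕ)
    (hG : ∀ l, l.Prime → G l → ¬ l ∣ q * M)
    (hnone : ∀ x : JZero M, p • x = 0 → IsEigen M G (fun l => (a l : ℤ)) x → x = 0)
    (g : JacTorsion.divGrp (Res A) (KM A M) p)
    (heig : HeckeEig A M p G a ((g : (KM A M)ˣ) : KM A M)) :
    ∃ h : KM A M, h ≠ 0 ∧ ((g : (KM A M)ˣ) : KM A M) = h ^ p := by
  have hq' : q.Prime := Fact.out
  obtain ⟨f, hf⟩ := exists_divGrp_lift hA hM hinj hqp hqM g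
  set x := JacTorsion.toTorsion (Additive.ofMul f) with hx
  have hxe : IsEigen M G (fun l => (a l : ℤ)) (x : JZero M) :=
    isEigen_of_isRed hA hM hinj hqp hqM hG hf heig
  have hx0 : x = 0 := Subtype.ext (hnone _ (CurveTorsion.mem_torsion_nsmul.mp x.2) hxe)
  obtain ⟨u, hu⟩ := (JacTorsion.toTorsion_eq_zero_iff _).mp hx0
  obtain ⟨z, hz⟩ := exists_isRed_pow (p := p) hA hM u
  rw [show u ^ p = (f : (FB M)ˣ) from hu] at hz
  obtain ⟨w, hw, hwe⟩ := hz.unique hf
  obtain ⟨w', rfl⟩ := IsAlgClosed.exists_pow_nat_eq w hp.out.pos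
  refine ⟨algebraMap (Res A) (KM A M) w' * z, ?_, Subtype.ext ?_⟩
  · refine mul_ne_zero ((map_ne_zero _).mpr fun h => hw ?_) fun h => hz.1 ?_
    · rw [h, zero_pow hp.out.ne_zero]
    · rw [h, zero_pow hp.out.ne_zero]; rfl
  · rw [hwe, mul_pow, ← map_pow]
    rfl

omit hinj hqp in
/-- The reductions of an eigen Kummer function at level `q M` are eigen. -/
theorem heckeEig_of_isRed (G : ℕ → Prop) (a : ℕ → ℕ) (hG : ∀ l, l.Prime → G l → ¬ l ∣ q * M)
    {f : JacTorsion.divGrp QBar (FB (q * M)) p}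
    (hf : IsEigen (q * M) G (fun l => (a l : ℤ)) (JacTorsion.toTorsion (Additive.ofMul f) : JZero (q * M)))
    (s : Fin 2) {z : KM A M}
    (hz : IsRed A (iota2 M q hqM s ((f : (FB (q * M))ˣ) : FB (q * M))) (z : LaurentSeries (Res A))) :
    HeckeEig A M p G a z := by
  intro l _ hl hGl
  have hq' : q.Prime := Fact.out
  have hlq : ¬ q ∣ l := fun h => hG l hl hGl
    ((Nat.prime_dvd_prime_iff_eq hq' hl).mp h ▸ dvd_mul_right _ M)
  obtain ⟨g, hg, e⟩ := exists_heckeNorm_eq l hl f _ (hf l hl hGl)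
  rw [zpow_natCast] at e
  obtain ⟨X, hX, hXim⟩ := exists_isRed_heckeImage hA hq' hlq
    (iota2_fracS M q hqM s (heckeNorm (q * M) l ((f : (FB (q * M))ˣ) : FB (q * M))))
    (fun ζ hζ => qExpand_iota2_heckeNorm q M l hqM hl (hG l hl hGl) s hζ _) hz
  obtain ⟨k, hk⟩ := IsRed.exists_of_ne_zero hA hq' (iota2_fracS M q hqM s g)
    ((map_ne_zero _).mpr hg)
  have hkK : k ∈ KM A M := isRed_mem_KM q M hqM hA hM hk
  have h2 := (hz.pow (a l)).mul (hk.pow p)
  rw [← map_pow, ← map_pow, ← map_mul, ← e] at h2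
  obtain ⟨u, hu, hue⟩ := h2.unique hX
  refine ⟨u, ⟨k, hkK⟩, hu, fun h => hk.1 (congrArg Subtype.val h), ?_⟩
  have e2 : ((algebraMap (Res A) (KM A M) u * (⟨k, hkK⟩ : KM A M) ^ p * z ^ a l : KM A M) :
      LaurentSeries (Res A)) = X := by
    rw [hue]
    push_cast
    rw [mul_comm ((z : LaurentSeries (Res A)) ^ a l), ← mul_assoc]
  rw [e2]
  exact hXim

end Fermat.Agent.RT.MazurQ

end
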