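import Fermat.Agent.RT.MazurQ.Core

/-!
# The principle of Mazur at a level without elliptic points

When `Γ₀(M)` has no elliptic points the supersingular points of level `M` are simple at every
prime `q ∤ M`, `q = 2` included, and Frobenius is `-q w` on inertia-fixed eigen classes of level
`q M` for every `p ≠ q`, as soon as there is no eigen class of level `M`.
-/

set_option autoImplicit false
set_option linter.unusedSectionVars false

noncomputable section

namespace Fermat.Agent.RT.MazurQ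

open AlgebraicCurve ModularCurve Fermat.Agent.Semistable Fermat.Agent.Arith
open Fermat.Agent.RT.Mazur Fermat.Agent.RT.MazurP Fermat.Agent.NewformLocal.Toric
open Fermat.Agent.RT.AtP Fermat.Agent.EC.Rep

/-- No elliptic points of order two at a level with a prime `3 (mod 4)`. -/
theorem nuTwo_eq_zero {n l : ℕ} (hl : l.Prime) (h4 : l % 4 = 3) (hln : l ∣ n) :
    nuTwo n = 0 := by
  have := Fact.mk hl
  refine Nat.card_eq_zero.mpr (Or.inl ⟨fun ⟨y, hy⟩ => ?_⟩)
  have h := congrArg (ZMod.castHom hln (ZMod l)) hy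
  simp only [map_add, map_pow, map_one, map_zero] at h
  exact (ZMod.mod_four_ne_three_of_sq_eq_neg_one
    (eq_neg_of_add_eq_zero_left h : (ZMod.castHom hln (ZMod l) y) ^ 2 = -1)) h4

/-- No elliptic points of order three at a level with a prime `2 (mod 3)`. -/
theorem nuThree_eq_zero {n l : ℕ} (hl : l.Prime) (h3 : l % 3 = 2) (hln : l ∣ n) :
    nuThree n = 0 := by
  have := Fact.mk hl
  refine Nat.card_eq_zero.mpr (Or.inl ⟨fun ⟨y, hy⟩ => ?_⟩)
  have h := congrArg (ZMod.castHom hln (ZMod l)) hy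
  simp only [map_add, map_pow, map_one, map_zero] at h
  set z := ZMod.castHom hln (ZMod l) y
  have hl3 : l ≠ 3 := fun h' => by omega
  have hz3 : z ^ 3 = 1 := by linear_combination (z - 1) * h
  have hz1 : z ≠ 1 := fun h1 => hl3 ((Nat.prime_dvd_prime_iff_eq hl Nat.prime_three).mp
    ((ZMod.natCast_eq_zero_iff 3 l).mp (by rw [h1] at h; push_cast; linear_combination h)))
  have hz0 : z ≠ 0 := fun h0 => by rw [h0] at hz3; simp at hz3
  have hord : orderOf z = 3 := orderOf_eq_prime hz3 hz1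
  have hdvd : 3 ∣ l - 1 := hord ▸ orderOf_dvd_of_pow_eq_one (ZMod.pow_card_sub_one_eq_one hz0)
  omega

/-- A prime `l ≡ 11 (mod 12)` in the level kills the elliptic points. -/
theorem nuTwo_nuThree_of_prime {n l : ℕ} (hl : l.Prime) (h4 : l % 4 = 3) (h3 : l % 3 = 2)
    (hln : l ∣ n) : nuTwo n = 0 ∧ nuThree n = 0 :=
  ⟨nuTwo_eq_zero hl h4 hln, nuThree_eq_zero hl h3 hln⟩

variable {q M p : ℕ} [hq : Fact q.Prime] [hp : Fact p.Prime] [NeZero M]

variable {A : ValuationSubring QBar} {G : ℕ → Prop} {a : ℕ → ℕ}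

/-- A Kummer function of an inertia-fixed eigen class has congruent orders along the components. -/
theorem exists_kum (hA : A.LiesOverPrime q) [CharP (Res A) q]
    [FF.IsFunctionField (Res A) (KM A M)] (h : Setup A M q) (hqp : p ≠ q)
    (hG : ∀ l, l.Prime → G l → ¬ l ∣ q * M)
    (hex : ∃ l, l.Prime ∧ G l ∧ ((l + 1 : ℕ) : ZMod p) ≠ (a l : ZMod p))
    (f : JacTorsion.divGrp QBar (FB (q * M)) p)
    (hfI : InertiaFixed A (((f : (FB (q * M))ˣ) : FB (q * M)) : LSer))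
    (hfe : IsEigen (q * M) G (fun l => (a l : ℤ))
      (JacTorsion.toTorsion (Additive.ofMul f) : JZero (q * M))) :
    ∃ K : RT.MazurP.Kum h.hqM (unramField (p := q) hA) p,
      K.f = ((f : (FB (q * M))ˣ) : FB (q * M)) ∧ (p : ℤ) ∣ K.δ := by
  set C := unramField (p := q) hA
  have hFfix : ∀ τ ∈ C.H,
      galF (q * M) τ ((f : (FB (q * M))ˣ) : FB (q * M)) = ((f : (FB (q * M))ˣ) : FB (q * M)) :=
    fun τ hτ => MazurP.galF_eq_self (hfI τ (C.le_inertia hτ))
  obtain ⟨K, hK⟩ := RT.MazurP.Kum.exists_of (hpM := h.hqM) (C := C) hp.out.pos hA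
    h.hM (Units.ne_zero _) (fun v => f.2 v) hFfix
  refine ⟨K, hK, ?_⟩
  obtain ⟨l, hl, hGl, hla⟩ := hex
  have : NeZero l := ⟨hl.ne_zero⟩
  obtain ⟨g, hg, e⟩ := exists_heckeNorm_eq l hl f _ (hfe l hl hGl)
  rw [zpow_natCast] at e
  have h1 := dvd_gord_sub hA hqp h.hqM C (Units.ne_zero _) hg hFfix hl (hG l hl hGl) e hla
  rwa [← hK, K.gord_eq, K.gord_eq] at h1

/-- Frobenius on a class both of whose reductions are powers. -/
theorem smul_eq_neg_of_red_pow (hA : A.LiesOverPrime q) [CharP (Res A) q]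
    [FF.IsFunctionField (Res A) (KM A M)] (h : Setup A M q) (V : VUnit A h.hqM) (hV : V.Simple)
    (hqp : p ≠ q) (hG : ∀ l, l.Prime → G l → ¬ l ∣ q * M)
    (hex : ∃ l, l.Prime ∧ G l ∧ ((l + 1 : ℕ) : ZMod p) ≠ (a l : ZMod p))
    (f : JacTorsion.divGrp QBar (FB (q * M)) p)
    (hfI : InertiaFixed A (((f : (FB (q * M))ˣ) : FB (q * M)) : LSer))
    (hfe : IsEigen (q * M) G (fun l => (a l : ℤ))
      (JacTorsion.toTorsion (Additive.ofMul f) : JZero (q * M)))
    (hpow : ∀ s, ∃ k : KM A M, IsRed A (iota2 M q h.hqM s ((f : (FB (q * M))ˣ) : FB (q * M)))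
      ((k ^ p : KM A M) : LaurentSeries (Res A)))
    {σ : GQ} (hσ : A.IsFrobeniusAt σ q) :
    σ • (JacTorsion.toTorsion (Additive.ofMul f) : JZero (q * M)) =
      -(q • (wSA h.hqM • (JacTorsion.toTorsion (Additive.ofMul f) : Pic0 QBar (FB (q * M))))) := by
  obtain ⟨K, hK, hδ⟩ := exists_kum hA h hqp hG hex f hfI hfe
  have hpow' : ∀ s, ∃ (c : Res A) (k : KM A M), c ≠ 0 ∧ k ≠ 0 ∧
      K.fb s = algebraMap (Res A) (KM A M) c * k ^ p := by
    intro s
    obtain ⟨k, hk⟩ := hpow s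
    have hKr := hK ▸ K.isRed_fb s
    obtain ⟨u, hu, e⟩ := hk.unique hKr
    refine ⟨u, k, hu, fun h0 => hk.1 ?_, Subtype.ext ?_⟩
    · rw [h0, zero_pow hp.out.ne_zero]; rfl
    · rw [e]; rfl
  have hord : ∀ v : Place QBar (FB (q * M)), v.ord ((f : (FB (q * M))ˣ) : FB (q * M)) =
      (p : ℤ) * (JacTorsion.divQuot f) v := fun v => by
    rw [← FF.div_apply, ← JacTorsion.smul_divQuot, Finsupp.smul_apply, smul_eq_mul]
  have hord' : ∀ v, v.ord K.f = (p : ℤ) * (JacTorsion.divQuot f) v :=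
    fun v => by rw [hK]; exact hord v
  obtain ⟨P, b, hP, hKum⟩ := exists_hasKummer_of_pow h V hV K hδ hpow' hord'
  obtain ⟨c, g, hc, hg, hce⟩ :=
    exists_const_mul_pow_of_hasKummer h hqp hσ K.f_ne hord' hP hKum
  rw [hK] at hce
  obtain ⟨c', rfl⟩ := IsAlgClosed.exists_pow_nat_eq c hp.out.pos
  have hc' : c' ≠ 0 := fun h0 => hc (by rw [h0, zero_pow hp.out.ne_zero])
  obtain ⟨f₁, hf₁, hf₁x⟩ := exists_smul_toTorsion
    (arithmeticGalois (modularFunctionFieldFull (q * M)) σ) f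
  obtain ⟨f₂, hf₂, hf₂x⟩ := exists_smul_toTorsion (wSA h.hqM) f
  rw [galois_smul_eq_galF] at hf₁
  rw [wSA_smul] at hf₂
  have h1 := eq_neg_of_mul_pow (f₁ := f₁) (f₂ := f₂) (n := q)
    (k := algebraMap QBar (FB (q * M)) c' * g) (mul_ne_zero ((_root_.map_ne_zero _).mpr hc') hg)
    (by rw [hf₁, hf₂, hce, mul_pow, map_pow])
  rw [hf₁x, hf₂x] at h1
  exact h1

/-- Without elliptic points and without eigen classes of level `M` Frobenius is `-q w`. -/
theorem frobNeg_of_rigid (hqM : ¬ q ∣ M) (hqp : p ≠ q) {l₁ : ℕ} (hl₁ : l₁.Prime)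
    (h4 : l₁ % 4 = 3) (h3 : l₁ % 3 = 2) (hl₁M : l₁ ∣ M)
    (hG : ∀ l, l.Prime → G l → ¬ l ∣ q * M)
    (hex : ∃ l, l.Prime ∧ G l ∧ ((l + 1 : ℕ) : ZMod p) ≠ (a l : ZMod p))
    (hnone : ∀ x : JZero M, p • x = 0 →
      (∀ l (hl : l.Prime), G l → heckeOperatorBar M ⟨l, hl⟩ x = a l • x) → x = 0) :
    FrobNeg hqM p G a := by
  classical
  intro A hA σ hσ x hx hfix
  have hq' : q.Prime := Fact.out
  have : CharP (Res A) q := Arith.residueField_charP hA hq'
  have := Arith.residueField_isAlgClosed A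
  have hM := natCast_res_ne_zero hA hq' hqM
  have : FF.IsFunctionField (Res A) (KM A M) := isFunctionField_KM A hM
  have h : Setup A M q := setup hA hq' hqM
  obtain ⟨V⟩ := RT.MazurP.exists_vUnit (p := q) (M := M) hA h.hM h.hqM
  have hV : V.Simple := V.simple_of_goodM hA h.hM h.good
    (genus_identity_of_nu hqM (nuTwo_nuThree_of_prime hl₁ h4 h3 hl₁M)
      (nuTwo_nuThree_of_prime hl₁ h4 h3 (hl₁M.trans (dvd_mul_left M q))))
  obtain ⟨f, hfx, -, hfI⟩ := exists_rational_kummer A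
    (⟨x, Pic0.mem_torsion.mpr (by rw [natCast_zsmul]; exact hx.1)⟩ :
      Pic0.torsion QBar (FB (q * M)) p) hfix
  have hfx' : (JacTorsion.toTorsion (Additive.ofMul f) : JZero (q * M)) = x := by rw [hfx]
  have hfe : IsEigen (q * M) G (fun l => (a l : ℤ))
      (JacTorsion.toTorsion (Additive.ofMul f) : JZero (q * M)) :=
    fun l hl hGl => by rw [hfx', hx.2 l hl hGl, natCast_zsmul]
  obtain ⟨K, hK, hδ⟩ := exists_kum hA h hqp hG hex f hfI hfe
  have key := smul_eq_neg_of_red_pow hA h V hV hqp hG hex f hfI hfe (fun s => ?_) hσ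
  · rw [hfx'] at key
    exact key
  have hKr : IsRed A (iota2 M q hqM s ((f : (FB (q * M))ˣ) : FB (q * M)))
      (K.fb s : LaurentSeries (Res A)) := hK ▸ K.isRed_fb s
  obtain ⟨k, hk, e⟩ := exists_eq_pow_of_heckeEig hA hM
    (FiniteFlat.injectiveOnTorsion_of_lattice M) hqp hqM G a hG
    (fun y hy hye => hnone y hy fun l hl hGl => by rw [hye l hl hGl, natCast_zsmul])
    ⟨Units.mk0 (K.fb s) (K.fb_ne s),
      fun P => dvd_ord_fb hA h.hM V hV (unramField_e hA) K hδ s P⟩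
    (heckeEig_of_isRed hA hM hqM G a hG (f := f) hfe s hKr)
  exact ⟨k, by rw [show k ^ p = K.fb s from e.symm]; exact hKr⟩

end Fermat.Agent.RT.MazurQ

end
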