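import Fermat.Agent.RT.MazurQ.HeckeRed
import Fermat.Agent.NewformLocal.Toric.Raise
import Fermat.Agent.RT.Mazur.Rational
import Fermat.Agent.Gamma0.Coset

/-!
# The two sides of an eigen Kummer function at level `q M`

When the orders along the two components agree modulo `p`, the divisors of both reductions are
divisible by `p`.
-/

set_option autoImplicit false
set_option linter.unusedSectionVars false

noncomputable section

namespace Fermat.Agent.RT.MazurQ

open AlgebraicCurve ModularCurve Fermat.Agent.Semistable Fermat.Agent.Arith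
open Fermat.Agent.RT.Mazur Fermat.Agent.RT.MazurP Fermat.Agent.NewformLocal.Toric
open scoped IntermediateField

/-! ### Kummer functions and semilinear automorphisms -/

theorem exists_smul_toTorsion {K F : Type*} [Field K] [IsAlgClosed K] [Field F] [Algebra K F]
    [FF.IsFunctionField K F] {m : ℕ} [NeZero m] (g : SemilinearAut K F)
    (f : JacTorsion.divGrp K F m) :
    ∃ f' : JacTorsion.divGrp K F m, ((f' : Fˣ) : F) = g • ((f : Fˣ) : F) ∧
      (JacTorsion.toTorsion (Additive.ofMul f') : Pic0 K F) =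
        g • (JacTorsion.toTorsion (Additive.ofMul f) : Pic0 K F) := by
  have h0 : g • ((f : Fˣ) : F) ≠ 0 := fun h =>
    Units.ne_zero (f : Fˣ) (MulAction.injective g (h.trans (smul_zero g).symm))
  have key : FF.div K (g • ((f : Fˣ) : F)) = (m : ℤ) • (g • JacTorsion.divQuot f) := by
    rw [← EichlerShimura.smul_div, ← JacTorsion.smul_divQuot, smul_comm]
  have hmem : Units.mk0 _ h0 ∈ JacTorsion.divGrp K F m := fun P => by
    rw [Units.val_mk0, ← FF.div_apply, key, Finsupp.smul_apply, smul_eq_mul]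
    exact dvd_mul_right _ _
  refine ⟨⟨_, hmem⟩, rfl, ?_⟩
  show Pic0.mk _ = g • Pic0.mk _
  rw [SemilinearAut.pic0_smul_mk]
  refine congrArg Pic0.mk (Subtype.ext (JacTorsion.eq_of_smul_eq (m := m) ?_))
  show (m : ℤ) • JacTorsion.divQuot _ = (m : ℤ) • _
  rw [JacTorsion.smul_divQuot, SemilinearAut.coe_degZeroSMulHom]
  exact key

variable {A : ValuationSubring QBar} {M : ℕ} [NeZero M] {p : ℕ} [hp : Fact p.Prime]

/-! ### The orders along the components -/

variable {q : ℕ} [hq : Fact q.Prime] (hA : A.LiesOverPrime q) (hqM : ¬ q ∣ M)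
include hA hqM

/-- A function with fixed `p`-th power is fixed after normalising its leading coefficient. -/
theorem galF_normalise (_hqp : p ≠ q) {N : ℕ} [NeZero N] {g : FB N} (hg : g ≠ 0) {τ : GQ}
    (h : galF N τ (g ^ p) = g ^ p) :
    galF N τ (algebraMap QBar (FB N) ((g : LSer).leadingCoeff)⁻¹ * g) =
      algebraMap QBar (FB N) ((g : LSer).leadingCoeff)⁻¹ * g := by
  have hg0 : (g : LSer) ≠ 0 := fun h0 => hg (Subtype.ext h0)
  obtain ⟨ξ, hξ⟩ := HasEnoughRootsOfUnity.exists_primitiveRoot QBar p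
  set r : FB N := galF N τ g / g with hr
  have hr1 : r ^ p = 1 := by
    rw [hr, div_pow, ← map_pow, h, div_self (pow_ne_zero _ hg)]
  have hξ' : IsPrimitiveRoot (algebraMap QBar (FB N) ξ) p :=
    hξ.map_of_injective (algebraMap QBar (FB N)).injective
  obtain ⟨i, -, hi⟩ := hξ'.eq_pow_of_pow_eq_one hr1
  rw [← map_pow] at hi
  set ζ := ξ ^ i
  have e : galF N τ g = algebraMap QBar (FB N) ζ * g := by
    rw [hi, hr, div_mul_cancel₀ _ hg]
  have e2 : coeffMap (τ : QBar →+* QBar) (g : LSer) = algebraMap QBar LSer ζ * (g : LSer) :=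
    congrArg Subtype.val e
  have hlead : τ ((g : LSer).leadingCoeff) = ζ * (g : LSer).leadingCoeff := by
    have h1 := congrArg HahnSeries.leadingCoeff e2
    rw [HahnSeries.leadingCoeff_mul, JacTorsion.coeffMap_leadingCoeff] at h1
    rw [show algebraMap QBar LSer ζ = HahnSeries.C ζ from MazurP.algebraMap_eq_C ζ] at h1
    simpa using h1
  have hζ : ζ ≠ 0 := pow_ne_zero _ (hξ.ne_zero hp.out.ne_zero)
  rw [map_mul, arithmeticRingAut_algebraMap, map_inv₀, hlead, e, ← mul_assoc, ← map_mul]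
  congr 2
  field_simp

omit hqM in
/-- The orders along the two components are congruent modulo `p`. -/
theorem dvd_gord_sub (hqp : p ≠ q) {M' : ℕ} [NeZero M'] (hqM' : ¬ q ∣ M')
    (C : CoefField A q) {f g : FB (q * M')} (hf : f ≠ 0) (hg : g ≠ 0)
    (hfix : ∀ τ ∈ C.H, galF (q * M') τ f = f)
    {l a : ℕ} [NeZero l] (hl : l.Prime) (hlN : ¬ l ∣ q * M')
    (e : heckeNorm (q * M') l f = f ^ a * g ^ p) (ha : ((l + 1 : ℕ) : ZMod p) ≠ (a : ZMod p)) :
    (p : ℤ) ∣ C.gord (iota2 M' q hqM' 1 f) - C.gord (iota2 M' q hqM' 0 f) := by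
  have hq' : q.Prime := Fact.out
  set c := (g : LSer).leadingCoeff
  have hc : c ≠ 0 := HahnSeries.leadingCoeff_ne_zero.mpr fun h0 => hg (Subtype.ext h0)
  set g₁ : FB (q * M') := algebraMap QBar (FB (q * M')) c⁻¹ * g with hg₁
  have hg₁0 : g₁ ≠ 0 := mul_ne_zero ((_root_.map_ne_zero _).mpr (inv_ne_zero hc)) hg
  have eg : g = algebraMap QBar (FB (q * M')) c * g₁ := by
    rw [hg₁, ← mul_assoc, ← map_mul, mul_inv_cancel₀ hc, map_one, one_mul]
  have hgp : ∀ τ ∈ C.H, galF (q * M') τ (g ^ p) = g ^ p := fun τ hτ => by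
    have h := heckeNorm_galF hl hlN τ f
    rw [hfix τ hτ, e, map_mul, map_pow, hfix τ hτ] at h
    exact (mul_left_cancel₀ (pow_ne_zero _ hf) h).symm
  have hg₁f : ∀ τ ∈ C.H, galF (q * M') τ g₁ = g₁ := fun τ hτ =>
    galF_normalise hA hqM' hqp hg (hgp τ hτ)
  have hcf : ∀ τ ∈ C.H, τ (c ^ p) = c ^ p := fun τ hτ => by
    have h := hgp τ hτ
    rw [eg, mul_pow, map_mul, map_pow (galF (q * M') τ) g₁, hg₁f τ hτ, ← map_pow,
      arithmeticRingAut_algebraMap] at h
    exact (algebraMap QBar (FB (q * M'))).injective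
      (mul_right_cancel₀ (pow_ne_zero _ hg₁0) h)
  have hfixI : ∀ (x : FB (q * M')), (∀ τ ∈ C.H, galF (q * M') τ x = x) →
      ∀ s, C.Fix (iota2 M' q hqM' s x) := fun x hx s τ hτ => by rw [← iota2_galF, hx τ hτ]
  have key : ∀ s, ((l : ℤ) + 1) * C.gord (iota2 M' q hqM' s f) =
      (a : ℤ) * C.gord (iota2 M' q hqM' s f) + C.gord (algebraMap QBar LSer (c ^ p)) +
        (p : ℤ) * C.gord (iota2 M' q hqM' s g₁) := by
    intro s
    have hx0 : iota2 M' q hqM' s f ≠ 0 := (_root_.map_ne_zero _).mpr hf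
    have hG0 : iota2 M' q hqM' s g₁ ≠ 0 := (_root_.map_ne_zero _).mpr hg₁0
    have hc0 : algebraMap QBar LSer (c ^ p) ≠ 0 := (_root_.map_ne_zero _).mpr (pow_ne_zero _ hc)
    have hlq : ¬ q ∣ l := fun h =>
      hlN ((Nat.prime_dvd_prime_iff_eq hq' hl).mp h ▸ dvd_mul_right _ _)
    rw [← gord_heckeImage hA hq' C (iota2_fracS M' q hqM' s f) hx0 (hfixI f hfix s)
      (iota2_fracS M' q hqM' s (heckeNorm (q * M') l f))
      fun ζ hζ => qExpand_iota2_heckeNorm q M' l hqM' hl hlN s hζ f]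
    have m1 := pow_mem (iota2_fracS (A := A) M' q hqM' s f) a
    have m2 := algebraMap_mem_fracS (A := A) (c ^ p)
    rw [e, eg, mul_pow, ← map_pow (algebraMap QBar (FB (q * M'))), ← mul_assoc, map_mul, map_mul,
      map_pow (iota2 M' q hqM' s) f, AlgHom.commutes, map_pow (iota2 M' q hqM' s) g₁,
      CoefField.gord_mul hA hq' (mul_mem m1 m2) (pow_mem (iota2_fracS M' q hqM' s g₁) p)
        (mul_ne_zero (pow_ne_zero _ hx0) hc0) (pow_ne_zero _ hG0)
        (((hfixI f hfix s).pow a).mul (CoefField.fix_algebraMap hcf))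
        ((hfixI g₁ hg₁f s).pow p),
      CoefField.gord_mul hA hq' m1 m2 (pow_ne_zero _ hx0) hc0 ((hfixI f hfix s).pow a)
        (CoefField.fix_algebraMap hcf),
      CoefField.gord_pow hA hq' (iota2_fracS M' q hqM' s f) hx0 (hfixI f hfix s),
      CoefField.gord_pow hA hq' (iota2_fracS M' q hqM' s g₁) hG0 (hfixI g₁ hg₁f s)]
  have h01 : (((l : ℤ) + 1) - a) *
      (C.gord (iota2 M' q hqM' 1 f) - C.gord (iota2 M' q hqM' 0 f)) =
      (p : ℤ) * (C.gord (iota2 M' q hqM' 1 g₁) - C.gord (iota2 M' q hqM' 0 g₁)) := by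
    linear_combination key 1 - key 0
  refine (Int.Prime.dvd_mul' hp.out ⟨_, h01⟩).resolve_left fun h' => ha ?_
  rw [← sub_eq_zero]
  have := (ZMod.intCast_zmod_eq_zero_iff_dvd _ p).mpr h'
  push_cast at this ⊢
  exact this

omit hqM in
/-- With congruent orders along the components the divisors of both reductions are divisible
by `p`. -/
theorem dvd_ord_fb [CharP (Res A) q] {M' : ℕ} [NeZero M'] {hqM' : ¬ q ∣ M'}
    [FF.IsFunctionField (Res A) (KM A M')] (hM' : (M' : Res A) ≠ 0) (V : VUnit A hqM')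
    (hV : V.Simple) {C : CoefField A q} (he : C.e = 1)
    (K : RT.MazurP.Kum hqM' C p) (hδ : (p : ℤ) ∣ K.δ) (s : Fin 2)
    (P : Place (Res A) (KM A M')) : (p : ℤ) ∣ P.ord (K.fb s) := by
  obtain ⟨hoff, hon, -⟩ := K.res V hA hM' hV
  simp only [he, Nat.cast_one, one_mul] at hon
  rcases hV.val P with h | h
  · fin_cases s
    · exact (hoff P h).1
    · exact (hoff P h).2
  · fin_cases s
    · show (p : ℤ) ∣ K.s₀ P
      simpa using dvd_sub hδ (hon P h).1
    · show (p : ℤ) ∣ K.t₀ P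
      simpa using dvd_sub (hon P h).2 hδ

end Fermat.Agent.RT.MazurQ

end
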